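import Fermat.Statements.S44
import Fermat.Agent.MR.A.Main
import Fermat.Agent.MR.E.Defs
import Fermat.Agent.MR.H.Top3
import Fermat.Agent.ORD.Contracts
import Fermat.Agent.TOR.GB.W

/-!
# MR (row S39/S40/S44, target S44) : the contracts of the blocks.  No proof obligations in this file.

Level `N = M₁ * p`, `M₁` admissible, `p ∤ M₁`, `p ≥ 5`; `A ∣ p` a place of `ℚ̄`, `I` its inertia group.
Kummer classes of exponent `p` are represented by their ROOTS `u ∈ ℚ̄((q))ˣ` (`GAL.IsKum`), modulo `FL Qb N`.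

* `Emb`          : (output of [H-IN] + [H-NEW]) a Galois and Hecke equivariant embedding of a Galois module `V` into the `p`-new Kummer classes
* `Out`          : (input of [H-OUT]) a non-zero eigenvector in the reductions of the cusp forms of level `M₁`
* `ESide`        : what the elliptic curve side proves about `V = E[p]`
* `InStatement`  : contract of the Galois half of block H (helper9)
* `EStatement`   : contract of block E (helper41)
* `CStatement`   : contract of block C (helper57, helper87, helper11, helper71; uses TH = helper22)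
* block B is `ORD.CoreStatement` (= `ORD.P3.core`), block A is `MR.A.blockA`, the Betti half of block H is `MR.H.S44_of_geomOcc`, `MR.H.geomOcc_of_geomF`.
-/

set_option autoImplicit false

open ModularCurve AlgebraicCurve
open WeierstrassCurve WeierstrassCurve.Affine WeierstrassCurve.Affine.Point
open FreyPackage

noncomputable section

namespace Fermat.Agent.MR

open Fermat.Agent.GAL Fermat.Agent.GR Fermat.Agent.GAL.KLC
open Fermat.Agent.S24 Fermat.Agent.TOR.GB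
open Fermat.Agent.MR.A (S2b opT opU PDiv Rb)
open Fermat.Agent.MR.E (HH FixU)

/-- the relation `R(U_r) = 0` on the class of `u`, multiplicatively. -/
def polyRel (r : ℕ) [NeZero r] (R : Polynomial ℤ) (u : LaurentSeries Qb) : LaurentSeries Qb :=
  ∏ i ∈ R.support, ((NmL Qb r)^[i] u) ^ (R.coeff i)

/-- "`p`-new" in the norm form (R2): `w_p(H) · U_p(H) = c g^p` with `g` of level `M₁`, for `H = u^p`. -/
def IsNew (M₁ p : ℕ) [NeZero M₁] [NeZero p] (u : LaurentSeries Qb) : Prop :=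
  ∀ h : u ^ p ∈ FL Qb (M₁ * p), ∃ (c : Qb) (g : LaurentSeries Qb), g ∈ FL Qb M₁ ∧
    ((wq M₁ p ⟨u ^ p, h⟩ : FN (M₁ * p)) : LaurentSeries Qb) * NmL Qb p (u ^ p) = HahnSeries.C c * g ^ p

/-- **[H-IN] + [H-NEW]** a Galois and Hecke equivariant embedding of `V` into the `p`-new Kummer classes of exponent `p` and level `M₁ p`
(`j Q` is a root of a Kummer generator of the class of `Q`). -/
structure Emb (M₁ p : ℕ) [NeZero M₁] [NeZero p] (V : Type*) [AddCommGroup V] [DistribMulAction GQ V]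
    (good : Set ℕ) (a : ℕ → ℤ) (R : Polynomial ℤ) where
  j : V → LaurentSeries Qb
  kum : ∀ Q, IsKum Qb (M₁ * p) p (j Q)
  add : ∀ Q Q', j (Q + Q') / (j Q * j Q') ∈ FL Qb (M₁ * p)
  inj : ∀ Q, j Q ∈ FL Qb (M₁ * p) → Q = 0
  gal : ∀ (σ : GQ) Q, galS σ (j Q) / j (σ • Q) ∈ FL Qb (M₁ * p)
  hT : ∀ (ℓ : ℕ) [NeZero ℓ], ℓ ∈ good → ∀ Q, heckeS Qb ℓ (j Q) / j Q ^ a ℓ ∈ FL Qb (M₁ * p)
  hU2 : ∀ Q, polyRel 2 R (j Q) ∈ FL Qb (M₁ * p)
  hUp : ∀ Q, NmL Qb p (NmL Qb p (j Q)) / j Q ∈ FL Qb (M₁ * p)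
  new : ∀ Q, IsNew M₁ p (j Q)

/-- **[H-OUT]** a non-zero eigenvector in the span of the reductions of the cusp forms of level `M₁`. -/
def Out (A : ValuationSubring Qb) (M₁ : ℕ) (good : Set ℕ) (a : ℕ → ℤ) (R : Polynomial ℤ) : Prop :=
  ∃ w ∈ S2b (kA A) M₁, w ≠ 0 ∧
    (∀ (ℓ : ℕ) [NeZero ℓ], ℓ ∈ good → opT ℓ w = HahnSeries.C ((a ℓ : ℤ) : kA A) * w) ∧
    R.sum (fun i c => HahnSeries.C ((c : ℤ) : kA A) * (opU 2)^[i] w) = 0

/-- what block E proves about `V = E[p]`. -/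
structure ESide (A : ValuationSubring Qb) (p : ℕ) (V : Type*) [AddCommGroup V]
    [DistribMulAction GQ V] : Prop where
  ex : ∃ T : V, T ≠ 0 ∧
    (∀ σ ∈ A.inertiaSubgroupIn ℚ, ∀ Q : V, ∃ b : ℤ, σ • Q - Q = b • T) ∧
    (∀ σ ∈ A.inertiaSubgroupIn ℚ, ∀ e : ℕ, (∀ ζ : Qb, ζ ^ p = 1 → σ ζ = ζ ^ e) → σ • T = (e : ℤ) • T) ∧
    (∀ σ ∈ HH A p, FixU A p σ → ∀ Q : V, σ • Q = Q) ∧
    ∃ Q : V, ∀ b : ℤ, Q ≠ b • T

/-- the `p`-torsion of an elliptic curve over `ℚ`, as a Galois module. -/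
abbrev Tors (E : WeierstrassCurve ℚ) (p : ℕ) : Type :=
  Submodule.torsionBy ℤ (E⁄(AlgebraicClosure ℚ)).Point p

/-- **contract of the Galois half of block H** (helper9: [H-IN] + [H-NEW]): the hypotheses are those of `MR.H.GeomF`. -/
def InStatement : Prop :=
  ∀ (E : WeierstrassCurve ℚ) [E.IsElliptic] (W : WeierstrassCurve ℤ), W.IsIntegralModelOf E →
  ∀ (p : ℕ) [NeZero p], p.Prime → 5 ≤ p →
    GaloisRepIsIrreducible (K := AlgebraicClosure ℚ) ℚ E p →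
  ∀ (K : Type) [Field K] [IsAlgClosed K] [CharP K p] (N' : ℕ) [NeZero N'] (a : ℕ → K)
    (R : Polynomial ℤ), ¬ p ∣ N' → AdmLevel N' → 2 ∣ N' →
    (∀ ℓ ∈ H.goodSet W (N' * p), a ℓ = ((W.apOfModel ℓ : ℤ) : K)) →
    Polynomial.aeval (a 2) R = 0 → a p ^ 2 = 1 →
    H.Occ K (N' * p) Set.univ a →
    (∀ α : K, Polynomial.aeval α R = 0 →
      ¬ H.Occ K N' (insert 2 (H.goodSet W (N' * p))) (Function.update a 2 α)) →
    Nonempty (Emb N' p (Tors E p) (H.goodSet W (N' * p)) (fun ℓ => W.apOfModel ℓ) R)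

/-- **contract of block E** (helper41 + helper43). -/
def EStatement : Prop :=
  ∀ (P : FreyPackage) (A : ValuationSubring Qb), A.LiesOverPrime P.p →
    (P.p : ℤ) ∣ P.a * P.b * P.c → ESide A P.p (Tors P.freyCurve P.p)

/-- **contract of block C** (the cover trick; uses TH, ORD/P2, ORD/P5, CAR/NS).
`u` = root of a generator of `x`, `u₁` = root of a generator of the toric line; `x` is peu ramifié; then the divisor of the reduction of `u^p` at
`∞` is divisible by `p` on `Spec R'`. -/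
def CStatement : Prop :=
  ∀ (M₁ p : ℕ) [NeZero M₁] [NeZero p], AdmLevel M₁ → p.Prime → 5 ≤ p → ¬ p ∣ M₁ →
  ∀ A : ValuationSubring Qb, A.LiesOverPrime p →
  ∀ u u₁ : LaurentSeries Qb, IsKum Qb (M₁ * p) p u → IsKum Qb (M₁ * p) p u₁ →
    u ∉ FL Qb (M₁ * p) → u₁ ∉ FL Qb (M₁ * p) →
    (∀ τ ∈ A.inertiaSubgroupIn ℚ, ∃ k : ℤ, galS τ u / (u * u₁ ^ k) ∈ FL Qb (M₁ * p)) →
    (∀ τ ∈ A.inertiaSubgroupIn ℚ, ∀ e : ℕ, (∀ ζ : Qb, ζ ^ p = 1 → τ ζ = ζ ^ e) →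
      galS τ u₁ / u₁ ^ e ∈ FL Qb (M₁ * p)) →
    (∀ σ ∈ HH A p, FixU A p σ → galS σ u / u ∈ FL Qb (M₁ * p)) →
    (∃ (ℓ : ℕ) (_ : NeZero ℓ) (e : ℤ), ℓ.Prime ∧ ¬ ℓ ∣ M₁ * p ∧ ¬ (p : ℤ) ∣ e - (ℓ + 1) ∧
      heckeS Qb ℓ u / u ^ e ∈ FL Qb (M₁ * p) ∧ heckeS Qb ℓ u₁ / u₁ ^ e ∈ FL Qb (M₁ * p)) →
    NmL Qb p (NmL Qb p u) / u ∈ FL Qb (M₁ * p) → NmL Qb p (NmL Qb p u₁) / u₁ ∈ FL Qb (M₁ * p) →
    IsNew M₁ p u → IsNew M₁ p u₁ →
    ∀ (c : Qb) (ab : LaurentSeries (kA A)), HasRed A (HahnSeries.C c * u ^ p) ab → ab ≠ 0 →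
      PDiv (Rb A M₁) p ab

end Fermat.Agent.MR
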