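import Fermat.Agent.MR.Glue
import Fermat.Agent.MR.H.Top

/-!
# MR : the chain  `frozen S44  ⇐  InStatement + EStatement + CStatement + ORD.CoreStatement`
(+ block A `MR.A.blockA`, + the Betti half of block H: `MR.H.S44_of_geomOcc`, `MR.H.occ_of_formalEig`, cited directly).
-/

set_option autoImplicit false
set_option linter.style.haveILetI false

open ModularCurve AlgebraicCurve
open WeierstrassCurve WeierstrassCurve.Affine WeierstrassCurve.Affine.Point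
open FreyPackage

noncomputable section

namespace Fermat.Agent.MR

open Fermat.Agent.GAL Fermat.Agent.GR Fermat.Agent.GAL.KLC
open Fermat.Agent.MR.A (S2b opT opU PDiv Rb Fb dlog)
open Fermat.Agent.MR.E (HH FixU)

theorem chain_div3 {K : Type*} [Field K] (x : K) {a b c d : K} (ha : a ≠ 0) (hb : b ≠ 0)
    (hc : c ≠ 0) (hd : d ≠ 0) : x / (c * d) = (x / a) * (a / (c * b)) * (b / d) := by
  field_simp

theorem chain_div2 {K : Type*} [Field K] (x : K) {a d : K} (ha : a ≠ 0) (hd : d ≠ 0) :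
    x / d = (x / a) * (a / d) := by
  field_simp

section Core

variable {M₁ p : ℕ} [NeZero M₁] [NeZero p] {V : Type*} [AddCommGroup V] [DistribMulAction GQ V]
  {good : Set ℕ} {a : ℕ → ℤ} {R : Polynomial ℤ}

/-- **GEOM**: the geometric core of Mazur–Ribet. -/
theorem geom_core (hC : CStatement) (hCore : ORD.CoreStatement) (hM : AdmLevel M₁) (hp : p.Prime)
    (hp5 : 5 ≤ p) (hpM : ¬ p ∣ M₁) (A : ValuationSubring Qb) (hA : A.LiesOverPrime p)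
    (hgood : ∀ ℓ ∈ good, ℓ.Prime ∧ ¬ ℓ ∣ M₁ * p)
    (hne : ∃ ℓ ∈ good, ¬ (p : ℤ) ∣ a ℓ - (ℓ + 1))
    (e : Emb M₁ p V good a R) (hE : ESide A p V) : Out A M₁ good a R := by
  obtain ⟨T, hT0, hi, hii, hiii, Q₀, hQ₀⟩ := hE.ex
  have hp2 : ¬ p ∣ 2 := fun h => by
    have := Nat.le_of_dvd (by norm_num) h
    omega
  -- `s0 ∈ I` with `ε(s0) = 2`
  obtain ⟨s0, hs0, hs0ζ'⟩ := ORD.P1.exists_inertia_pow A hp hA 1 2 hp2
  have hs0ζ : ∀ ζ : Qb, ζ ^ p = 1 → s0 ζ = ζ ^ 2 := fun ζ hζ => hs0ζ' ζ (by rwa [pow_one])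
  -- the fixed point of `s0` in `Q₀ + ℤ T`
  obtain ⟨b, hb⟩ := hi s0 hs0 Q₀
  have hsT : s0 • T = (2 : ℤ) • T := by
    have := hii s0 hs0 2 hs0ζ
    exact_mod_cast this
  set Q : V := Q₀ - b • T with hQ
  have hsQ : s0 • Q = Q := by
    have h1 : s0 • Q₀ = Q₀ + b • T := by rw [← hb]; abel
    have h2 : s0 • (b • T) = b • (s0 • T) :=
      map_zsmul (DistribSMul.toAddMonoidHom V s0) b T
    rw [hQ, smul_sub, h1, h2, hsT, smul_smul]
    have : (b * 2) • T = b • T + b • T := by rw [mul_two, add_smul]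
    rw [this]; abel
  have hQT : ∀ k : ℤ, Q ≠ k • T := by
    intro k hk
    apply hQ₀ (k + b)
    rw [add_smul, ← hk, hQ]; abel
  have hQ0 : Q ≠ 0 := fun h => hQT 0 (by rw [h, zero_smul])
  set u := e.j Q with hu
  set u₁ := e.j T with hu₁
  have hu0 : u ≠ 0 := e.ne_zero Q
  have hu₁0 : u₁ ≠ 0 := e.ne_zero T
  have hun : u ∉ FL Qb (M₁ * p) := fun h => hQ0 (e.inj Q h)
  obtain ⟨hupow, -⟩ := (e.kum Q).2
  obtain ⟨c, ab, hc, hab, hred⟩ := chain_exists_norm A hupow (pow_ne_zero p hu0)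
  -- hypotheses of block C
  have h1 : ∀ τ ∈ A.inertiaSubgroupIn ℚ, ∃ k : ℤ, galS τ u / (u * u₁ ^ k) ∈ FL Qb (M₁ * p) := by
    intro τ hτ
    obtain ⟨k, hk⟩ := hi τ hτ Q
    refine ⟨k, ?_⟩
    have e1 : τ • Q = Q + k • T := by rw [← hk]; abel
    have g1 := e.gal τ Q
    rw [e1] at g1
    have g2 := e.add Q (k • T)
    have g3 := e.zsmul T k
    have hj1 := e.ne_zero (Q + k • T)
    have hj2 := e.ne_zero (k • T)
    rw [chain_div3 (galS τ u) hj1 hj2 hu0 (zpow_ne_zero k hu₁0)]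
    exact mul_mem (mul_mem g1 g2) g3
  have h2 : ∀ τ ∈ A.inertiaSubgroupIn ℚ, ∀ n : ℕ, (∀ ζ : Qb, ζ ^ p = 1 → τ ζ = ζ ^ n) →
      galS τ u₁ / u₁ ^ n ∈ FL Qb (M₁ * p) := by
    intro τ hτ n hn
    have g1 := e.gal τ T
    rw [hii τ hτ n hn] at g1
    have g3 := e.zsmul T (n : ℤ)
    rw [zpow_natCast] at g3
    have hj2 := e.ne_zero ((n : ℤ) • T)
    rw [chain_div2 (galS τ u₁) hj2 (pow_ne_zero n hu₁0)]
    exact mul_mem g1 g3
  have h3 : ∀ σ ∈ HH A p, FixU A p σ → galS σ u / u ∈ FL Qb (M₁ * p) := by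
    intro σ hσ hf
    have g1 := e.gal σ Q
    rwa [hiii σ hσ hf Q] at g1
  have h4 : ∃ (ℓ : ℕ) (_ : NeZero ℓ) (n : ℤ), ℓ.Prime ∧ ¬ ℓ ∣ M₁ * p ∧ ¬ (p : ℤ) ∣ n - (ℓ + 1) ∧
      heckeS Qb ℓ u / u ^ n ∈ FL Qb (M₁ * p) ∧ heckeS Qb ℓ u₁ / u₁ ^ n ∈ FL Qb (M₁ * p) := by
    obtain ⟨ℓ, hg, hn⟩ := hne
    haveI : NeZero ℓ := ⟨(hgood ℓ hg).1.ne_zero⟩
    exact ⟨ℓ, inferInstance, a ℓ, (hgood ℓ hg).1, (hgood ℓ hg).2, hn, e.hT ℓ hg Q, e.hT ℓ hg T⟩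
  have hPD : PDiv (Rb A M₁) p ab :=
    hC M₁ p hM hp hp5 hpM A hA u u₁ (e.kum Q) (e.kum T) hun (fun h => hT0 (e.inj T h)) h1 h2 h3 h4
      (e.hUp Q) (e.hUp T)
      (e.new Q) (e.new T) c ab hred hab
  have hs0u : galS s0 u / u ∈ FL Qb (M₁ * p) := by
    have g1 := e.gal s0 Q
    rwa [hsQ] at g1
  have hmem : ab ∈ Fb A M₁ := by
    refine chain_mem_Fb M₁ p hM hp hpM A hA (mul_mem ?_ hupow) hred
    have : (HahnSeries.C c : LaurentSeries Qb) = algebraMap Qb (LaurentSeries Qb) c :=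
      (Fermat.Agent.GAL.CT.theta_algebraMap_eq_C c).symm
    rw [this]
    exact (FL Qb (M₁ * p)).algebraMap_mem c
  obtain ⟨hS2, hne0⟩ := Fermat.Agent.MR.A.blockA M₁ p hM hp hpM A hA hmem hPD
    (not_pow_of_core hCore hM hp hp5 hpM A hA hs0 hs0ζ (e.kum Q) hun (e.hUp Q) hs0u hred hab)
  refine ⟨dlog ab, hS2, hne0, ?_, ?_⟩
  · intro ℓ _ hg
    have hℓp : ¬ p ∣ ℓ := fun h => (hgood ℓ hg).2 (by
      rw [← (Nat.prime_dvd_prime_iff_eq hp (hgood ℓ hg).1).1 h]; exact Dvd.intro_left M₁ rfl)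
    exact opT_dlog_of_sim hp A hA hℓp hu0 (e.hT ℓ hg Q) hc hred hab
  · exact opU_dlog_of_polyRel hp A hA hp2 hu0 R (e.hU2 Q) hc hred hab

end Core

/-! ## the chain -/

theorem frey_isElliptic (P : FreyPackage) : P.freyCurve.IsElliptic := by
  refine ⟨isUnit_iff_ne_zero.2 ?_⟩
  rw [← Fermat.Agent.Lib.FreyCurveBasic.freyCurveInt_map P, WeierstrassCurve.map_Δ]
  simpa using Fermat.Agent.Lib.FreyCurveBasic.freyCurveInt_Δ_ne_zero P

/-- **the contract `MR.H.GeomF` of the Betti half of block H.** -/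
theorem geomF_of (hIn : InStatement) (hE : EStatement) (hC : CStatement)
    (hCore : ORD.CoreStatement) (P : FreyPackage)
    (hirr : GaloisRepIsIrreducible (K := AlgebraicClosure ℚ) ℚ P.freyCurve P.p)
    (hdvd : (P.p : ℤ) ∣ P.a * P.b * P.c) (W : WeierstrassCurve ℤ)
    (hW : W.IsIntegralModelOf P.freyCurve) (A : ValuationSubring Qb) (hA : A.LiesOverPrime P.p) :
    H.GeomF P.p W (kA A) := by
  intro N' a R hN' hpN hAdm h2 hgood haR hap hOcc hnew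
  haveI : NeZero P.p := ⟨P.pp.ne_zero⟩
  haveI : NeZero N' := ⟨hN'.ne'⟩
  haveI : P.freyCurve.IsElliptic := frey_isElliptic P
  haveI : IsAlgClosed (kA A) := Fermat.Agent.MR.A.HeckeRed_isAlgClosed_kA A
  haveI : CharP (kA A) P.p := charP_residueField P.pp hA
  obtain ⟨e⟩ := hIn P.freyCurve W hW P.p P.pp P.hp5 hirr (kA A) N' a R hpN hAdm h2 hgood haR hap
    hOcc hnew
  have hg : ∀ ℓ ∈ H.goodSet W (N' * P.p), ℓ.Prime ∧ ¬ ℓ ∣ N' * P.p := fun ℓ h => ⟨h.1, h.2.2⟩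
  have hne : ∃ ℓ ∈ H.goodSet W (N' * P.p), ¬ (P.p : ℤ) ∣ W.apOfModel ℓ - (ℓ + 1) := by
    have hp2 : P.p ≠ 2 := by have := P.hp5; omega
    obtain ⟨ℓ, hℓ, hℓT, hℓg, hℓn⟩ := Fermat.Agent.S41.G.exists_nonEisenstein_prime P.freyCurve hW
      P.pp hp2 hirr (N' * P.p).primeFactors
    refine ⟨ℓ, ⟨hℓ, hℓg, fun h => hℓT ?_⟩, fun h => hℓn ?_⟩
    · exact Nat.mem_primeFactors.2 ⟨hℓ, h, Nat.mul_ne_zero hN'.ne' P.pp.ne_zero⟩
    · have : (W.apOfModel ℓ) ^ 2 - ((ℓ : ℤ) + 1) ^ 2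
          = (W.apOfModel ℓ - (ℓ + 1)) * (W.apOfModel ℓ + (ℓ + 1)) := by ring
      rw [this]
      exact h.mul_right _
  obtain ⟨w, hw, hw0, hT, hU⟩ := geom_core hC hCore hAdm P.pp P.hp5 hpN A hA hg hne e
    (hE P A hA hdvd)
  refine ⟨w, hw0, hw, ?_, isFormalRel_of_opU R hU⟩
  intro ℓ hℓ
  haveI : NeZero ℓ := ⟨hℓ.1.ne_zero⟩
  exact isFormalEig_of_opT N' (fun h => hℓ.2.2 (h.mul_right _)) (hT ℓ hℓ)

/-- **frozen S44 from the contracts.** -/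
theorem s44_of (hIn : InStatement) (hE : EStatement) (hC : CStatement) (hCore : ORD.CoreStatement)
    (P : FreyPackage) {N : ℕ} (hcond : P.IsConductorLevel N) (hpN : P.p ∣ N)
    (hirr : GaloisRepIsIrreducible (K := AlgebraicClosure ℚ) ℚ P.freyCurve P.p)
    (hmod : P.ModularRepOfLevel N) : ∃ M : ℕ, M ∣ N ∧ ¬ P.p ∣ M ∧ P.ModularRepOfLevel M := by
  obtain ⟨A, hA⟩ := Fermat.Agent.Lib.FrobeniusExists.exists_liesOverPrime (L := Qb) P.pp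
  exact H.S44_of_geomOcc P (fun W hW => ⟨kA A, inferInstance,
    Fermat.Agent.MR.A.HeckeRed_isAlgClosed_kA A, charP_residueField P.pp hA,
    haveI := Fermat.Agent.MR.A.HeckeRed_isAlgClosed_kA A
    H.geomOcc_of_geomF P.pp (by have := P.hp5; omega) W (kA A)
      (geomF_of hIn hE hC hCore P hirr (hcond.p_dvd_abc hpN) W hW A hA)⟩) hcond hpN hirr hmod

end Fermat.Agent.MR
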