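import Fermat.Agent.MR.Contracts
import Fermat.Agent.MR.E.Use

/-!
# MR : `EStatement` (contract of block E) from `MR.E.eside_frey`.
-/

set_option autoImplicit false

open ModularCurve AlgebraicCurve
open WeierstrassCurve WeierstrassCurve.Affine WeierstrassCurve.Affine.Point
open FreyPackage

noncomputable section

namespace Fermat.Agent.MR

open Fermat.Agent.GAL Fermat.Agent.GR
open Fermat.Agent.MR.E (HH FixU)

theorem eProof_Δ_ne_zero (P : FreyPackage) : P.freyCurve.Δ ≠ 0 := by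
  rw [← S13.freyCurveInt_map P, WeierstrassCurve.map_Δ]
  simpa using S13.freyCurveInt_Δ_ne_zero P

/-- **block E.** -/
theorem eStatement : EStatement := by
  intro P A hA hdvd
  obtain ⟨T, hT, hT0, hi, hii, hiii⟩ := E.eside_frey P A hA hdvd
  have hp2 : P.p ≠ 2 := by have := P.hp5; omega
  obtain ⟨Q, hQ, hQT⟩ := E.exists_not_mem_line P.freyCurve (eProof_Δ_ne_zero P) P.pp hp2 T hT
  have mem : ∀ X : (P.freyCurve⁄Qb).Point, (P.p : ℤ) • X = 0 →
      X ∈ Submodule.torsionBy ℤ (P.freyCurve⁄Qb).Point P.p := fun X hX => by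
    rw [Submodule.mem_torsionBy_iff]; exact hX
  have tors : ∀ X : Tors P.freyCurve P.p, (P.p : ℤ) • (X : (P.freyCurve⁄Qb).Point) = 0 := fun X => by
    have := X.2
    rwa [Submodule.mem_torsionBy_iff] at this
  refine ⟨⟨⟨T, mem T hT⟩, fun h => hT0 (congrArg Subtype.val h), ?_, ?_, ?_, ⟨Q, mem Q hQ⟩, ?_⟩⟩
  · intro σ hσ X
    obtain ⟨b, hb⟩ := hi σ hσ X (tors X)
    exact ⟨b, Subtype.ext hb⟩
  · intro σ hσ e he
    exact Subtype.ext (hii σ hσ e he)
  · intro σ hσ hf X
    exact Subtype.ext (hiii σ hσ hf X (tors X))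
  · intro b hb
    exact hQT b (congrArg Subtype.val hb)

end Fermat.Agent.MR
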