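import Fermat.Agent.MR.Glue.Zsmul
import Fermat.Agent.MR.Glue.Norm
import Fermat.Agent.MR.Glue.MemFb
import Fermat.Agent.MR.Glue.NotPow
import Fermat.Agent.MR.Glue.OpT
import Fermat.Agent.MR.Glue.OpU
import Fermat.Agent.MR.Glue.FormalEig
import Fermat.Agent.MR.Glue.FormalRel
import Fermat.Agent.ORD.P1.Inertia
import Fermat.Agent.S41.G.NonEis
import Fermat.Agent.Lib.FrobeniusExists
import Fermat.Agent.Lib.FreyCurveBasic

/-! # MR : the small glue lemmas of the chain (`MR/Chain.lean`), packages MR-CH-1 .. MR-CH-8, one file each in `MR/Glue/`. -/
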